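import Mathlib
import Fermat.Agent.LT.T1.Spec
import Fermat.Agent.LT.H11.LC

/-!
# Row LT, tower T1, shared lemma (helper317): the reference box of the adele ring

OFF-MAIN.  `box317 K R = {x : |x_w| ≤ R at the infinite places, x_v ∈ 𝒪_v at the finite places}`
is compact, closed and a neighbourhood of `0` (for `0 < R`).
-/

set_option autoImplicit false

open IsDedekindDomain NumberField MeasureTheory
open scoped Pointwise NNReal ENNReal RestrictedProduct

noncomputable section

namespace Fermat.Agent.LT.T1.H317

open Fermat.Agent.LT.H556.A0 Fermat.Agent.LT.T1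

variable (K : Type) [Field K] [NumberField K]

/-- The integral finite adeles. -/
def intFin317 : Set (FiniteAdeleRing (𝓞 K) K) :=
  {f | ∀ v : HeightOneSpectrum (𝓞 K), f v ∈ v.adicCompletionIntegers K}

/-- The product of the closed balls of radius `R` at the infinite places. -/
def ballInf317 (R : ℝ) : Set (InfiniteAdeleRing K) :=
  {a | ∀ w : InfinitePlace K, ‖a w‖ ≤ R}

/-- The reference box. -/
def box317 (R : ℝ) : Set (Adl K) :=
  {x | (∀ w : InfinitePlace K, ‖x.1 w‖ ≤ R) ∧
    ∀ v : HeightOneSpectrum (𝓞 K), x.2 v ∈ v.adicCompletionIntegers K}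

theorem box317_eq_prod (R : ℝ) :
    box317 K R = (ballInf317 K R) ×ˢ (intFin317 K) := by
  ext x
  exact Iff.rfl

omit [NumberField K] in
theorem isCompact_closedBall_completion317 (w : InfinitePlace K) (R : ℝ) :
    IsCompact {z : w.Completion | ‖z‖ ≤ R} := by
  have hiso := InfinitePlace.Completion.isometry_extensionEmbedding w
  have hce : Topology.IsClosedEmbedding (InfinitePlace.Completion.extensionEmbedding w) :=
    hiso.isClosedEmbedding
  have h1 : {z : w.Completion | ‖z‖ ≤ R}
      = (InfinitePlace.Completion.extensionEmbedding w) ⁻¹' (Metric.closedBall (0 : ℂ) R) := by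
    ext z
    show ‖z‖ ≤ R ↔ InfinitePlace.Completion.extensionEmbedding w z ∈ Metric.closedBall (0 : ℂ) R
    rw [Metric.mem_closedBall, dist_zero_right, hiso.norm_map_of_map_zero (map_zero _)]
  rw [h1]
  exact hce.isCompact_preimage (isCompact_closedBall (0 : ℂ) R)

omit [NumberField K] in
theorem isCompact_ballInf317 (R : ℝ) : IsCompact (ballInf317 K R) := by
  have h1 : ballInf317 K R
      = Set.univ.pi (fun w : InfinitePlace K => {z : w.Completion | ‖z‖ ≤ R}) := by
    ext a
    exact ⟨fun h w _ => h w, fun h w => h w (Set.mem_univ w)⟩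
  rw [h1]
  exact isCompact_univ_pi (fun w => isCompact_closedBall_completion317 K w R)

theorem isCompact_intFin317 : IsCompact (intFin317 K) := by
  have hc : ∀ v : HeightOneSpectrum (𝓞 K), CompactSpace (v.adicCompletionIntegers K) :=
    fun v => Fermat.Agent.LT.H11.LC.compactSpace_integers_h11 K v
  have h1 : intFin317 K = Set.range (RestrictedProduct.structureMap
      (fun v : HeightOneSpectrum (𝓞 K) => v.adicCompletion K)
      (fun v : HeightOneSpectrum (𝓞 K) => (v.adicCompletionIntegers K : Set (v.adicCompletion K)))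
      Filter.cofinite) := by
    rw [RestrictedProduct.range_structureMap]
    rfl
  rw [h1]
  exact isCompact_range (RestrictedProduct.isEmbedding_structureMap).continuous

theorem isOpen_intFin317 : IsOpen (intFin317 K) := by
  exact RestrictedProduct.isOpen_forall_mem
    (fun v : HeightOneSpectrum (𝓞 K) => Valued.isOpen_valuationSubring (v.adicCompletion K))

theorem isCompact_box317 (R : ℝ) : IsCompact (box317 K R) := by
  rw [box317_eq_prod]
  exact (isCompact_ballInf317 K R).prod (isCompact_intFin317 K)

theorem ballInf317_mem_nhds {R : ℝ} (hR : 0 < R) : ballInf317 K R ∈ nhds (0 : InfiniteAdeleRing K) := by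
  have h1 : ballInf317 K R
      = Set.univ.pi (fun w : InfinitePlace K => {z : w.Completion | ‖z‖ ≤ R}) := by
    ext a
    exact ⟨fun h w _ => h w, fun h w => h w (Set.mem_univ w)⟩
  rw [h1]
  refine set_pi_mem_nhds Set.finite_univ (fun w _ => ?_)
  have h2 : {z : w.Completion | ‖z‖ ≤ R} = Metric.closedBall (0 : w.Completion) R := by
    ext z
    show ‖z‖ ≤ R ↔ z ∈ Metric.closedBall (0 : w.Completion) R
    rw [Metric.mem_closedBall, dist_zero_right]
  rw [h2]
  exact Metric.closedBall_mem_nhds _ hR

theorem box317_mem_nhds {R : ℝ} (hR : 0 < R) : box317 K R ∈ nhds (0 : Adl K) := by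
  rw [box317_eq_prod]
  have h0 : (0 : FiniteAdeleRing (𝓞 K) K) ∈ intFin317 K := fun v => zero_mem _
  exact prod_mem_nhds (ballInf317_mem_nhds K hR) ((isOpen_intFin317 K).mem_nhds h0)

end Fermat.Agent.LT.T1.H317

end
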