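import Mathlib
import Fermat.Agent.LT.T1.H317.Box

/-!
# Row LT, tower T1, shared lemma (helper317): local ideles and unit ideles

OFF-MAIN.  Algebra only: the local idele `locFin317 K v x` (`x` at `v`, `1` elsewhere), the
infinite idele `infIdele317 K a`, unit ideles, and their action on the reference box.
-/

set_option autoImplicit false

open IsDedekindDomain NumberField MeasureTheory
open scoped Pointwise NNReal ENNReal RestrictedProduct

noncomputable section

namespace Fermat.Agent.LT.T1.H317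

open Fermat.Agent.LT.H556.A0 Fermat.Agent.LT.T1

variable (K : Type) [Field K] [NumberField K]

/-! ## Components -/

theorem mul_fst317 (x y : Adl K) (w : InfinitePlace K) : (x * y).1 w = x.1 w * y.1 w := rfl
theorem mul_snd317 (x y : Adl K) (v : HeightOneSpectrum (𝓞 K)) :
    (x * y).2 v = x.2 v * y.2 v := rfl
theorem add_fst317 (x y : Adl K) (w : InfinitePlace K) : (x + y).1 w = x.1 w + y.1 w := rfl
theorem add_snd317 (x y : Adl K) (v : HeightOneSpectrum (𝓞 K)) :
    (x + y).2 v = x.2 v + y.2 v := rfl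
theorem one_fst317 (w : InfinitePlace K) : (1 : Adl K).1 w = 1 := rfl
theorem one_snd317 (v : HeightOneSpectrum (𝓞 K)) : (1 : Adl K).2 v = 1 := rfl
theorem zero_fst317 (w : InfinitePlace K) : (0 : Adl K).1 w = 0 := rfl
theorem zero_snd317 (v : HeightOneSpectrum (𝓞 K)) : (0 : Adl K).2 v = 0 := rfl

/-- The image of `S` under multiplication by `a`. -/
def mulSet317 (a : Adl K) (S : Set (Adl K)) : Set (Adl K) := (fun x => a * x) '' S

theorem unit_inv_fst317 (u : (Adl K)ˣ) (w : InfinitePlace K) :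
    ((u⁻¹ : (Adl K)ˣ) : Adl K).1 w * (u : Adl K).1 w = 1 := by
  have h := congrArg (fun x : Adl K => x.1 w) u.inv_mul
  exact h

theorem unit_inv_snd317 (u : (Adl K)ˣ) (v : HeightOneSpectrum (𝓞 K)) :
    ((u⁻¹ : (Adl K)ˣ) : Adl K).2 v * (u : Adl K).2 v = 1 := by
  have h := congrArg (fun x : Adl K => x.2 v) u.inv_mul
  exact h

theorem unit_fst_ne_zero317 (u : (Adl K)ˣ) (w : InfinitePlace K) : (u : Adl K).1 w ≠ 0 :=
  right_ne_zero_of_mul_eq_one (unit_inv_fst317 K u w)

theorem unit_snd_ne_zero317 (u : (Adl K)ˣ) (v : HeightOneSpectrum (𝓞 K)) : (u : Adl K).2 v ≠ 0 :=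
  right_ne_zero_of_mul_eq_one (unit_inv_snd317 K u v)

/-! ## Unit ideles -/

/-- `u` has absolute value `1` at every place. -/
def IsUnitIdele317 (u : (Adl K)ˣ) : Prop :=
  (∀ w : InfinitePlace K, ‖(u : Adl K).1 w‖ = 1) ∧
    ∀ v : HeightOneSpectrum (𝓞 K), Valued.v ((u : Adl K).2 v) = 1

theorem IsUnitIdele317.inv {u : (Adl K)ˣ} (h : IsUnitIdele317 K u) : IsUnitIdele317 K u⁻¹ := by
  refine ⟨fun w => ?_, fun v => ?_⟩
  · have h1 := congrArg norm (unit_inv_fst317 K u w)
    rw [norm_mul, h.1 w, mul_one, norm_one] at h1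
    exact h1
  · have h1 := congrArg Valued.v (unit_inv_snd317 K u v)
    rw [map_mul, h.2 v, mul_one, map_one] at h1
    exact h1

theorem mul_mem_box317_of_le {a : Adl K} {c R : ℝ} (hc : 0 ≤ c)
    (h1 : ∀ w : InfinitePlace K, ‖a.1 w‖ ≤ c)
    (h2 : ∀ v : HeightOneSpectrum (𝓞 K), Valued.v (a.2 v) ≤ 1)
    {x : Adl K} (hx : x ∈ box317 K R) : a * x ∈ box317 K (c * R) := by
  refine ⟨fun w => ?_, fun v => ?_⟩
  · rw [mul_fst317, norm_mul]
    exact mul_le_mul (h1 w) (hx.1 w) (norm_nonneg _) hc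
  · rw [mul_snd317]
    exact mul_mem ((HeightOneSpectrum.mem_adicCompletionIntegers (𝓞 K) K v).2 (h2 v)) (hx.2 v)

theorem mulSet_box317_subset {a : Adl K} {c R : ℝ} (hc : 0 ≤ c)
    (h1 : ∀ w : InfinitePlace K, ‖a.1 w‖ ≤ c)
    (h2 : ∀ v : HeightOneSpectrum (𝓞 K), Valued.v (a.2 v) ≤ 1) :
    mulSet317 K a (box317 K R) ⊆ box317 K (c * R) := by
  rintro _ ⟨x, hx, rfl⟩
  exact mul_mem_box317_of_le K hc h1 h2 hx

theorem IsUnitIdele317.mulSet_box {u : (Adl K)ˣ} (h : IsUnitIdele317 K u) (R : ℝ) :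
    mulSet317 K (u : Adl K) (box317 K R) = box317 K R := by
  apply Set.Subset.antisymm
  · have := mulSet_box317_subset K (R := R) (a := (u : Adl K)) zero_le_one
      (fun w => (h.1 w).le) (fun v => (h.2 v).le)
    rwa [one_mul] at this
  · intro x hx
    have h' := h.inv
    have := mul_mem_box317_of_le K (R := R) (a := ((u⁻¹ : (Adl K)ˣ) : Adl K)) zero_le_one
      (fun w => (h'.1 w).le) (fun v => (h'.2 v).le) hx
    rw [one_mul] at this
    refine ⟨((u⁻¹ : (Adl K)ˣ) : Adl K) * x, this, ?_⟩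
    show (u : Adl K) * (((u⁻¹ : (Adl K)ˣ) : Adl K) * x) = x
    rw [← mul_assoc, Units.mul_inv, one_mul]

/-! ## Local ideles -/

/-- The finite adele with component `x` at `v` and `1` elsewhere. -/
def mulSingleFin317 (v : HeightOneSpectrum (𝓞 K)) (x : v.adicCompletion K) :
    FiniteAdeleRing (𝓞 K) K :=
  letI := Classical.decEq (HeightOneSpectrum (𝓞 K))
  RestrictedProduct.mulSingle (fun v : HeightOneSpectrum (𝓞 K) => v.adicCompletionIntegers K) v x

/-- The finite adele with component `x` at `v` and `0` elsewhere. -/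
def singleFin317 (v : HeightOneSpectrum (𝓞 K)) (x : v.adicCompletion K) :
    FiniteAdeleRing (𝓞 K) K :=
  letI := Classical.decEq (HeightOneSpectrum (𝓞 K))
  RestrictedProduct.single (fun v : HeightOneSpectrum (𝓞 K) => v.adicCompletionIntegers K) v x

theorem mulSingleFin317_same (v : HeightOneSpectrum (𝓞 K)) (x : v.adicCompletion K) :
    mulSingleFin317 K v x v = x := by
  letI := Classical.decEq (HeightOneSpectrum (𝓞 K))
  exact RestrictedProduct.mulSingle_eq_same _ v x

theorem mulSingleFin317_of_ne (v : HeightOneSpectrum (𝓞 K)) (x : v.adicCompletion K)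
    {v' : HeightOneSpectrum (𝓞 K)} (h : v' ≠ v) : mulSingleFin317 K v x v' = 1 := by
  letI := Classical.decEq (HeightOneSpectrum (𝓞 K))
  exact RestrictedProduct.mulSingle_eq_of_ne _ x h

theorem singleFin317_same (v : HeightOneSpectrum (𝓞 K)) (x : v.adicCompletion K) :
    singleFin317 K v x v = x := by
  letI := Classical.decEq (HeightOneSpectrum (𝓞 K))
  exact RestrictedProduct.single_eq_same _ v x

theorem singleFin317_of_ne (v : HeightOneSpectrum (𝓞 K)) (x : v.adicCompletion K)
    {v' : HeightOneSpectrum (𝓞 K)} (h : v' ≠ v) : singleFin317 K v x v' = 0 := by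
  letI := Classical.decEq (HeightOneSpectrum (𝓞 K))
  exact RestrictedProduct.single_eq_of_ne _ x h

/-- The adele `(1, x at v)` as a monoid homomorphism in `x`. -/
def locFinHom317 (v : HeightOneSpectrum (𝓞 K)) : v.adicCompletion K →* Adl K where
  toFun x := ((1 : InfiniteAdeleRing K), mulSingleFin317 K v x)
  map_one' := by
    refine Prod.ext rfl ?_
    apply FiniteAdeleRing.ext
    intro v'
    by_cases h : v' = v
    · subst h; rw [mulSingleFin317_same]; rfl
    · rw [mulSingleFin317_of_ne K v 1 h]; rfl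
  map_mul' x y := by
    refine Prod.ext (mul_one _).symm ?_
    apply FiniteAdeleRing.ext
    intro v'
    show mulSingleFin317 K v (x * y) v' = mulSingleFin317 K v x v' * mulSingleFin317 K v y v'
    by_cases h : v' = v
    · subst h; simp only [mulSingleFin317_same]
    · simp only [mulSingleFin317_of_ne K v _ h, mul_one]

/-- The local idele at the finite place `v`. -/
def locFin317 (v : HeightOneSpectrum (𝓞 K)) : (v.adicCompletion K)ˣ →* (Adl K)ˣ :=
  Units.map (locFinHom317 K v)

theorem locFin317_fst (v : HeightOneSpectrum (𝓞 K)) (x : (v.adicCompletion K)ˣ)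
    (w : InfinitePlace K) : ((locFin317 K v x : (Adl K)ˣ) : Adl K).1 w = 1 := rfl

theorem locFin317_snd_same (v : HeightOneSpectrum (𝓞 K)) (x : (v.adicCompletion K)ˣ) :
    ((locFin317 K v x : (Adl K)ˣ) : Adl K).2 v = x :=
  mulSingleFin317_same K v x

theorem locFin317_snd_of_ne (v : HeightOneSpectrum (𝓞 K)) (x : (v.adicCompletion K)ˣ)
    {v' : HeightOneSpectrum (𝓞 K)} (h : v' ≠ v) :
    ((locFin317 K v x : (Adl K)ˣ) : Adl K).2 v' = 1 :=
  mulSingleFin317_of_ne K v x h

/-- The adele `(0, x at v)`. -/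
def addFin317 (v : HeightOneSpectrum (𝓞 K)) (x : v.adicCompletion K) : Adl K :=
  ((0 : InfiniteAdeleRing K), singleFin317 K v x)

theorem addFin317_fst (v : HeightOneSpectrum (𝓞 K)) (x : v.adicCompletion K)
    (w : InfinitePlace K) : (addFin317 K v x).1 w = 0 := rfl

theorem addFin317_snd_same (v : HeightOneSpectrum (𝓞 K)) (x : v.adicCompletion K) :
    (addFin317 K v x).2 v = x := singleFin317_same K v x

theorem addFin317_snd_of_ne (v : HeightOneSpectrum (𝓞 K)) (x : v.adicCompletion K)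
    {v' : HeightOneSpectrum (𝓞 K)} (h : v' ≠ v) : (addFin317 K v x).2 v' = 0 :=
  singleFin317_of_ne K v x h

/-! ## The valuation group `ℤᵐ⁰` -/

theorem lt_one_iff_le_exp317 (x : WithZero (Multiplicative ℤ)) :
    x < 1 ↔ x ≤ WithZero.exp (-1 : ℤ) := by
  rcases eq_or_ne x 0 with rfl | hx
  · exact ⟨fun _ => bot_le, fun _ => zero_lt_one⟩
  · obtain ⟨n, rfl⟩ : ∃ n : ℤ, x = WithZero.exp n := ⟨WithZero.log x, (WithZero.exp_log hx).symm⟩
    rw [← WithZero.exp_zero, WithZero.exp_lt_exp, WithZero.exp_le_exp]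
    omega


end Fermat.Agent.LT.T1.H317

end
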